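/-
Programme AV (S26/S27), brick SAND (helper60), phase 1: the ABSTRACT sandwich and lower-bound
lemmas of the volume argument.

Setting: `K` a field, `F'/F` a finite separable extension of fields over `K` (geometrically
`F = K(A)`, `F' = K(A)` via `[N]^*`), and increasing filtrations by `K`-subspaces
`R m ⊆ F` (`= H⁰(A, L^m)`), `R' m ⊆ F'` (`= H⁰(A, [N]^* L^m)`) such that

* (A1) `1 ∈ R 0`, `R a * R b ⊆ R (a + b)`, `R' a * R' b ⊆ R' (a + b)`;
* (A2) `R m ⊆ R' m`;
* (A3) `Tr_{F'/F} (R' m) ⊆ R m`;
* (A4) `⋃ R' m` spans `F'` over `F`.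

Then there is a constant `c` with injective `K`-linear maps
`(R m)^d ↪ R' (m + c)` and `R' m ↪ (R (m + c))^d`, `d = [F' : F]`; hence
`d * a m ≤ a' (m + c)` and `a' m ≤ d * a (m + c)` for the dimensions.

Lower bound: if `x₁ … x_g ∈ R c` are algebraically independent over `K` then
`(q + 1)^g ≤ dim R (c * (g * q))`, hence `m^g ≤ (c g)^g * dim R m`.
-/
import Mathlib

set_option autoImplicit false
set_option linter.style.haveILetI false

open Module

namespace Fermat.Agent.AV.Sand60

/-- A pair of multiplicative filtrations on a finite extension of fields `F'/F` over `K`, related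
by inclusion and trace. -/
structure FiltPair (K F F' : Type*) [Field K] [Field F] [Field F'] [Algebra K F] [Algebra K F']
    [Algebra F F'] [IsScalarTower K F F'] where
  /-- the filtration downstairs -/
  R : ℕ → Submodule K F
  /-- the filtration upstairs -/
  R' : ℕ → Submodule K F'
  mono : Monotone R
  mono' : Monotone R'
  one_mem : (1 : F) ∈ R 0
  mul_mem : ∀ {a b : ℕ} {x y : F}, x ∈ R a → y ∈ R b → x * y ∈ R (a + b)
  mul_mem' : ∀ {a b : ℕ} {x y : F'}, x ∈ R' a → y ∈ R' b → x * y ∈ R' (a + b)
  map_mem : ∀ {m : ℕ} {x : F}, x ∈ R m → algebraMap F F' x ∈ R' m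
  trace_mem : ∀ {m : ℕ} {y : F'}, y ∈ R' m → Algebra.trace F F' y ∈ R m
  span_top : Submodule.span F (⋃ m, (R' m : Set F')) = ⊤

variable {K F F' : Type*} [Field K] [Field F] [Field F'] [Algebra K F] [Algebra K F']
  [Algebra F F'] [IsScalarTower K F F']

namespace FiltPair

variable (P : FiltPair K F F')

/-- A basis of `F'/F` contained in one step of the filtration upstairs. -/
theorem exists_basis_mem [FiniteDimensional F F'] :
    ∃ (c : ℕ) (b : Basis (Fin (finrank F F')) F F'), ∀ i, b i ∈ P.R' c := by
  classical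
  obtain ⟨s, hs_sub, hs_span, hli⟩ := exists_linearIndependent F (⋃ m, (P.R' m : Set F'))
  have hsp : ⊤ ≤ Submodule.span F (Set.range ((↑) : s → F')) := by
    rw [Subtype.range_coe, hs_span, P.span_top]
  let b0 : Basis s F F' := Basis.mk hli hsp
  haveI : Fintype s := FiniteDimensional.fintypeBasisIndex b0
  have hcard : Fintype.card s = finrank F F' := (Module.finrank_eq_card_basis b0).symm
  let e : s ≃ Fin (finrank F F') := Fintype.equivFinOfCardEq hcard
  let b : Basis (Fin (finrank F F')) F F' := b0.reindex e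
  have hb : ∀ i, ∃ m, b i ∈ P.R' m := by
    intro i
    have h1 : b i = ((e.symm i : s) : F') := by
      simp [b, b0, Basis.reindex_apply]
    have h2 : ((e.symm i : s) : F') ∈ ⋃ m, (P.R' m : Set F') := hs_sub (e.symm i).2
    obtain ⟨m, hm⟩ := Set.mem_iUnion.1 h2
    exact ⟨m, by rw [h1]; exact hm⟩
  choose m hm using hb
  refine ⟨Finset.univ.sup m, b, fun i => ?_⟩
  exact P.mono' (Finset.le_sup (Finset.mem_univ i)) (hm i)

/-- **Lower half of the sandwich**: `(r_i) ↦ Σ r_i e_i`. -/
theorem exists_lower [FiniteDimensional F F'] {c : ℕ} (b : Basis (Fin (finrank F F')) F F')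
    (hb : ∀ i, b i ∈ P.R' c) (m : ℕ) :
    ∃ f : (Fin (finrank F F') → P.R m) →ₗ[K] P.R' (m + c), Function.Injective f := by
  classical
  have hmem : ∀ r : Fin (finrank F F') → P.R m,
      (∑ i, algebraMap F F' (r i : F) * b i) ∈ P.R' (m + c) := fun r =>
    Submodule.sum_mem _ fun i _ => P.mul_mem' (P.map_mem (r i).2) (hb i)
  let f : (Fin (finrank F F') → P.R m) →ₗ[K] P.R' (m + c) :=
    { toFun := fun r => ⟨∑ i, algebraMap F F' (r i : F) * b i, hmem r⟩
      map_add' := fun r s => by
        apply Subtype.ext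
        simp only [Pi.add_apply, Submodule.coe_add, map_add, add_mul, Finset.sum_add_distrib]
      map_smul' := fun k r => by
        apply Subtype.ext
        simp only [Pi.smul_apply, Submodule.coe_smul, RingHom.id_apply, Finset.smul_sum]
        refine Finset.sum_congr rfl fun i _ => ?_
        rw [Algebra.smul_def k (r i : F), map_mul, ← IsScalarTower.algebraMap_apply, mul_assoc,
          ← Algebra.smul_def] }
  refine ⟨f, ?_⟩
  rw [injective_iff_map_eq_zero]
  intro r hr
  have h0 : ∑ i, (r i : F) • b i = 0 := by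
    have := congrArg Subtype.val hr
    simpa [f, Algebra.smul_def] using this
  have h1 := Fintype.linearIndependent_iff.1 b.linearIndependent (fun i => (r i : F)) h0
  funext i
  exact Subtype.ext (h1 i)

/-- **Upper half of the sandwich**: `f' ↦ (Tr (f' e_j))_j`. -/
theorem exists_upper [FiniteDimensional F F'] [Algebra.IsSeparable F F'] {c : ℕ}
    (b : Basis (Fin (finrank F F')) F F') (hb : ∀ i, b i ∈ P.R' c) (m : ℕ) :
    ∃ f : P.R' m →ₗ[K] (Fin (finrank F F') → P.R (m + c)), Function.Injective f := by
  classical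
  let f : P.R' m →ₗ[K] (Fin (finrank F F') → P.R (m + c)) :=
    { toFun := fun y j => ⟨Algebra.trace F F' ((y : F') * b j), P.trace_mem (P.mul_mem' y.2 (hb j))⟩
      map_add' := fun y z => by
        funext j
        apply Subtype.ext
        simp only [Submodule.coe_add, add_mul, map_add, Pi.add_apply]
      map_smul' := fun k y => by
        funext j
        apply Subtype.ext
        simp only [Submodule.coe_smul, RingHom.id_apply, Pi.smul_apply]
        rw [smul_mul_assoc, ← algebraMap_smul F k ((y : F') * b j), map_smul,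
          algebraMap_smul] }
  refine ⟨f, ?_⟩
  rw [injective_iff_map_eq_zero]
  intro y hy
  have h0 : ∀ j, Algebra.trace F F' ((y : F') * b j) = 0 := fun j => by
    have := congrArg (fun g => ((g j : P.R (m + c)) : F)) hy
    simpa [f] using this
  have h1 : Algebra.traceForm F F' (y : F') = 0 := by
    refine b.ext fun j => ?_
    simp only [Algebra.traceForm_apply, LinearMap.zero_apply]
    exact h0 j
  have h2 : (y : F') = 0 :=
    (traceForm_nondegenerate F F').1 (y : F') fun z => by rw [h1]; rfl
  exact Subtype.ext h2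

/-- **The abstract sandwich**: a single constant `c` works for both halves and all `m`. -/
theorem exists_sandwich [FiniteDimensional F F'] [Algebra.IsSeparable F F'] :
    ∃ c : ℕ, ∀ m : ℕ,
      (∃ f : (Fin (finrank F F') → P.R m) →ₗ[K] P.R' (m + c), Function.Injective f) ∧
      (∃ f : P.R' m →ₗ[K] (Fin (finrank F F') → P.R (m + c)), Function.Injective f) := by
  obtain ⟨c, b, hb⟩ := P.exists_basis_mem
  exact ⟨c, fun m => ⟨P.exists_lower b hb m, P.exists_upper b hb m⟩⟩

/-- **The sandwich for dimensions**: `d a(m) ≤ a'(m + c)` and `a'(m) ≤ d a(m + c)`. -/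
theorem exists_sandwich_finrank [FiniteDimensional F F'] [Algebra.IsSeparable F F']
    (hfin : ∀ m, Module.Finite K (P.R m)) (hfin' : ∀ m, Module.Finite K (P.R' m)) :
    ∃ c : ℕ, ∀ m : ℕ,
      finrank F F' * finrank K (P.R m) ≤ finrank K (P.R' (m + c)) ∧
      finrank K (P.R' m) ≤ finrank F F' * finrank K (P.R (m + c)) := by
  obtain ⟨c, hc⟩ := P.exists_sandwich
  refine ⟨c, fun m => ?_⟩
  obtain ⟨⟨f, hf⟩, ⟨g, hg⟩⟩ := hc m
  haveI := hfin m
  haveI := hfin (m + c)
  haveI := hfin' m
  haveI := hfin' (m + c)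
  constructor
  · have h := LinearMap.finrank_le_finrank_of_injective hf
    rwa [Module.finrank_pi_fintype, Finset.sum_const, Finset.card_univ, Fintype.card_fin,
      smul_eq_mul] at h
  · have h := LinearMap.finrank_le_finrank_of_injective hg
    rwa [Module.finrank_pi_fintype, Finset.sum_const, Finset.card_univ, Fintype.card_fin,
      smul_eq_mul] at h

section LowerBound

/-- Powers respect the filtration. -/
theorem pow_mem {c : ℕ} {x : F} (hx : x ∈ P.R c) (a : ℕ) : x ^ a ∈ P.R (c * a) := by
  induction a with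
  | zero => simpa using P.one_mem
  | succ a ih =>
    rw [pow_succ, Nat.mul_succ]
    exact P.mul_mem ih hx

/-- Finite products respect the filtration. -/
theorem prod_mem {ι : Type*} (s : Finset ι) (y : ι → F) (n : ι → ℕ)
    (h : ∀ i ∈ s, y i ∈ P.R (n i)) : ∏ i ∈ s, y i ∈ P.R (∑ i ∈ s, n i) := by
  classical
  induction s using Finset.induction_on with
  | empty => simpa using P.one_mem
  | insert i s hi ih =>
    rw [Finset.prod_insert hi, Finset.sum_insert hi]
    exact P.mul_mem (h i (Finset.mem_insert_self i s))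
      (ih fun j hj => h j (Finset.mem_insert_of_mem hj))

/-- Monomials with exponents bounded by `q` in `g` elements of `R c` lie in `R (c g q)`. -/
theorem monomial_mem {g c q : ℕ} (x : Fin g → F) (hxc : ∀ i, x i ∈ P.R c)
    (α : Fin g → Fin (q + 1)) : ∏ i, x i ^ (α i : ℕ) ∈ P.R (c * (g * q)) := by
  have h1 := P.prod_mem Finset.univ (fun i => x i ^ (α i : ℕ)) (fun i => c * (α i : ℕ))
    (fun i _ => P.pow_mem (hxc i) _)
  refine P.mono ?_ h1
  calc ∑ i : Fin g, c * (α i : ℕ) ≤ ∑ _i : Fin g, c * q :=
        Finset.sum_le_sum fun i _ => Nat.mul_le_mul_left c (Nat.lt_succ_iff.1 (α i).2)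
    _ = c * (g * q) := by
        rw [Finset.sum_const, Finset.card_univ, Fintype.card_fin, smul_eq_mul]
        ring

/-- **Lower bound**: `g` algebraically independent elements of `R c` give
`(q + 1)^g ≤ dim R (c g q)`. -/
theorem pow_le_finrank_of_algebraicIndependent {g c : ℕ} (x : Fin g → F)
    (hx : AlgebraicIndependent K x) (hxc : ∀ i, x i ∈ P.R c) (q : ℕ)
    [Module.Finite K (P.R (c * (g * q)))] :
    (q + 1) ^ g ≤ finrank K (P.R (c * (g * q))) := by
  classical
  let toS : (Fin g → Fin (q + 1)) → (Fin g →₀ ℕ) := fun α =>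
    Finsupp.equivFunOnFinite.symm fun i => (α i : ℕ)
  have htoS : Function.Injective toS := by
    intro α β h
    funext i
    have := DFunLike.congr_fun h i
    exact Fin.ext (by simpa [toS] using this)
  have hmon : LinearIndependent K (fun α : Fin g → Fin (q + 1) =>
      (MvPolynomial.basisMonomials (Fin g) K) (toS α)) :=
    (MvPolynomial.basisMonomials (Fin g) K).linearIndependent.comp toS htoS
  have hker : LinearMap.ker (MvPolynomial.aeval x : MvPolynomial (Fin g) K →ₐ[K] F).toLinearMap
      = ⊥ := by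
    rw [LinearMap.ker_eq_bot]
    exact hx
  have hF : LinearIndependent K (fun α : Fin g → Fin (q + 1) =>
      ∏ i, x i ^ (α i : ℕ)) := by
    have h := hmon.map' _ hker
    have heq : (fun α : Fin g → Fin (q + 1) => ∏ i, x i ^ (α i : ℕ)) =
        (MvPolynomial.aeval x : MvPolynomial (Fin g) K →ₐ[K] F).toLinearMap ∘
          fun α : Fin g → Fin (q + 1) => (MvPolynomial.basisMonomials (Fin g) K) (toS α) := by
      funext α
      simp only [Function.comp_apply, AlgHom.toLinearMap_apply,
        MvPolynomial.coe_basisMonomials, MvPolynomial.aeval_monomial, map_one, one_mul]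
      rw [Finsupp.prod_fintype _ _ fun i => pow_zero _]
      rfl
    rw [heq]
    exact h
  let v : (Fin g → Fin (q + 1)) → P.R (c * (g * q)) := fun α =>
    ⟨∏ i, x i ^ (α i : ℕ), P.monomial_mem x hxc α⟩
  have hv : LinearIndependent K v :=
    LinearIndependent.of_comp (P.R (c * (g * q))).subtype (by exact hF)
  have hcard := hv.fintype_card_le_finrank
  simpa using hcard

/-- **Lower bound, polynomial form**: `m^g ≤ (c g)^g * dim R m` for all `m`. -/
theorem pow_le_mul_finrank {g c : ℕ} (hg : 0 < g) (hc : 0 < c) (x : Fin g → F)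
    (hx : AlgebraicIndependent K x) (hxc : ∀ i, x i ∈ P.R c) (m : ℕ)
    [Module.Finite K (P.R m)] :
    m ^ g ≤ (c * g) ^ g * finrank K (P.R m) := by
  set q := m / (c * g) with hq
  have hcg : 0 < c * g := Nat.mul_pos hc hg
  have hle : c * (g * q) ≤ m := by
    rw [← mul_assoc]
    exact Nat.mul_div_le m (c * g)
  have hRle : P.R (c * (g * q)) ≤ P.R m := P.mono hle
  haveI : Module.Finite K (P.R (c * (g * q))) := Submodule.finiteDimensional_of_le hRle
  have h1 := P.pow_le_finrank_of_algebraicIndependent x hx hxc q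
  have h2 : finrank K (P.R (c * (g * q))) ≤ finrank K (P.R m) := Submodule.finrank_mono hRle
  have h3 : m < c * g * (q + 1) := Nat.lt_mul_div_succ m hcg
  calc m ^ g ≤ (c * g * (q + 1)) ^ g := Nat.pow_le_pow_left h3.le g
    _ = (c * g) ^ g * (q + 1) ^ g := mul_pow _ _ _
    _ ≤ (c * g) ^ g * finrank K (P.R m) := Nat.mul_le_mul_left _ (h1.trans h2)

end LowerBound

end FiltPair

end Fermat.Agent.AV.Sand60
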